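import Mathlib
import Fermat.Agent.FF2.GC.Chord

/-!
# MOONSHOT S19, block (F6-a): composition of two chords, divisor level

`C`, `C'` two charts (`G2.ChartData S g`).  A first chord `X1 : GC.ChordData C' (g + g)` takes two
families of points in the discs of `C` (its input centres are the centres of `C`, twice) to a family
in the discs of `C'`; a second chord `X2 : GC.ChordData C g` (input centres = the centres of `C'`)
brings it back to the discs of `C`.  On classes each chord is `E ↦ const − E`, so the composite is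
the addition law of the kernel of reduction up to a constant:

`X2.out (X1.out (C.pt D ⊔ C.pt D')) = C.pt (D + D' + c0)`,
`c0 = m₂∞₂ − R₂ − m₁∞₁ + R₁ + Σ P0`.
-/

set_option autoImplicit false

namespace Fermat.Agent.FF2.G4

open AlgebraicCurve Module Fermat.Agent.Red Fermat.Agent.FF2.G2 Fermat.Agent.FF2.GC

variable {K F k Ft : Type*} [Field K] [Field F] [Algebra K F] [Field k] [Field Ft]
  [Algebra k Ft] {A : ValuationSubring K} {π : A →+* k}
  {S : RedSetup (F := F) (Ft := Ft) A π}

/-- `sumPts` of two concatenated families. -/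
theorem sumPts_append {g : ℕ} (P P' : Fin g → Place K F) :
    sumPts (Fin.append P P') = sumPts P + sumPts P' := by
  unfold sumPts
  rw [Fin.sum_univ_add]
  simp only [Fin.append_left, Fin.append_right]

variable {g : ℕ} {C C' : ChartData S g} (X1 : ChordData C' (g + g)) (X2 : ChordData C g)

/-- The constant of the two-chord composite: `m₂∞₂ − R₂ − m₁∞₁ + R₁ + Σ P0`. -/
noncomputable def twoChordConst : Divisor K F :=
  Finsupp.single X2.Pinf (X2.m : ℤ) - X2.R - Finsupp.single X1.Pinf (X1.m : ℤ) + X1.R +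
    sumPts C.P0

variable (hπ : Function.Surjective π) (hF : RiemannPkg K F) (hFt : RiemannPkg k Ft)
  (hg : genusFF K F ≤ g)
  (hQ1 : ∀ i, X1.Qb i = Fin.append C.Pb C.Pb i) (hQ2 : ∀ j, X2.Qb j = C'.Pb j)

include hQ1 in
/-- The concatenation of two families of chart points is a legal input of the first chord. -/
theorem r_append_pt (D D' : Divisor K F) (i : Fin (g + g)) :
    S.r (Fin.append (C.pt hF hFt hg D) (C.pt hF hFt hg D') i) = X1.Qb i := by
  rw [hQ1 i]
  refine Fin.addCases (fun j => ?_) (fun j => ?_) i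
  · rw [Fin.append_left, Fin.append_left]
    exact C.r_pt hF hFt hg D j
  · rw [Fin.append_right, Fin.append_right]
    exact C.r_pt hF hFt hg D' j

include hQ2 in
/-- The output of the first chord is a legal input of the second. -/
theorem r_out1 (Pin : Fin (g + g) → Place K F) (j : Fin g) :
    S.r (X1.out hπ hF hFt hg Pin j) = X2.Qb j := by
  rw [hQ2 j]
  exact X1.out_mem_Disc hπ hF hFt hg Pin j

include hQ1 in
/-- The class identity behind the composite of the two chords. -/
theorem twoChord_sub_mem_principal {D D' : Divisor K F} (hD : D ∈ kerRed S)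
    (hD' : D' ∈ kerRed S) :
    (X2.inDiv (X1.out hπ hF hFt hg (Fin.append (C.pt hF hFt hg D) (C.pt hF hFt hg D'))) -
      sumPts C.P0) - (D + D' + twoChordConst X1 X2) ∈
        Divisor.principal (K := K) (F := F) := by
  set Pin := Fin.append (C.pt hF hFt hg D) (C.pt hF hFt hg D') with hPin
  have h1 := X1.out_spec hπ hF hFt hg (Pin := Pin) (r_append_pt X1 hF hFt hg hQ1 D D')
  have h2 := C.pt_spec hF hFt hg hD
  have h3 := C.pt_spec hF hFt hg hD'
  have h4 := add_mem (add_mem (neg_mem h1) h2) h3
  have e : -(sumPts (X1.out hπ hF hFt hg Pin) - X1.inDiv Pin) +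
      (sumPts (C.pt hF hFt hg D) - sumPts C.P0 - D) +
      (sumPts (C.pt hF hFt hg D') - sumPts C.P0 - D') =
      (X2.inDiv (X1.out hπ hF hFt hg Pin) - sumPts C.P0) - (D + D' + twoChordConst X1 X2) := by
    rw [ChordData.inDiv, ChordData.inDiv, hPin, sumPts_append, twoChordConst]
    abel
  rwa [e] at h4

include hπ hF hFt hg hQ1 hQ2 in
/-- The constant lies in the kernel of reduction. -/
theorem twoChordConst_mem_kerRed : twoChordConst X1 X2 ∈ kerRed S := by
  have h0 : (0 : Divisor K F) ∈ kerRed S := zero_mem _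
  have h1 := twoChord_sub_mem_principal X1 X2 hπ hF hFt hg hQ1 h0 h0
  have h2 := X2.inDiv_sub_mem_kerRed hπ hF hFt hg
    (Pin := X1.out hπ hF hFt hg (Fin.append (C.pt hF hFt hg 0) (C.pt hF hFt hg 0)))
    (r_out1 X1 X2 hπ hF hFt hg hQ2 _)
  have h3 := sub_mem h2 (principal_le_kerRed S hF h1)
  have e : X2.inDiv (X1.out hπ hF hFt hg (Fin.append (C.pt hF hFt hg 0) (C.pt hF hFt hg 0))) -
      sumPts C.P0 -
      (X2.inDiv (X1.out hπ hF hFt hg (Fin.append (C.pt hF hFt hg 0) (C.pt hF hFt hg 0))) -
        sumPts C.P0 - (0 + 0 + twoChordConst X1 X2)) = twoChordConst X1 X2 := by abel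
  rwa [e] at h3

include hQ1 hQ2 in
/-- **(F6-a)** The composite of the two chords is the addition law of the kernel of reduction in
the chart `C`, up to the constant `twoChordConst`. -/
theorem out_out_eq_pt {D D' : Divisor K F} (hD : D ∈ kerRed S) (hD' : D' ∈ kerRed S) :
    X2.out hπ hF hFt hg
        (X1.out hπ hF hFt hg (Fin.append (C.pt hF hFt hg D) (C.pt hF hFt hg D'))) =
      C.pt hF hFt hg (D + D' + twoChordConst X1 X2) := by
  have hc := twoChordConst_mem_kerRed X1 X2 hπ hF hFt hg hQ1 hQ2
  rw [X2.out_eq_pt hπ hF hFt hg (r_out1 X1 X2 hπ hF hFt hg hQ2 _)]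
  rw [C.pt_eq_pt_iff hπ hF hFt hg
    (X2.inDiv_sub_mem_kerRed hπ hF hFt hg (r_out1 X1 X2 hπ hF hFt hg hQ2 _))
    (add_mem (add_mem hD hD') hc)]
  exact twoChord_sub_mem_principal X1 X2 hπ hF hFt hg hQ1 hD hD'

end Fermat.Agent.FF2.G4
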