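import Mathlib
import Fermat.Agent.FF2.GC.Chord
import Fermat.Agent.FF2.HChord.Dvd
import Fermat.Agent.Red.NormalForm

/-!
# MOONSHOT S19, block (F6-b), part 1: the chord function in the lattice basis

`Xg : GC.ChordData C' n` a geometric chord (helper14), `H : HChord.HonestData S j Y Z` a lattice
basis `H.e` with its Taylor data (helper25).  If `H.e` is a REDUCED basis of `L(m∞)` (residues
linearly independent over `k`, span `⊇ L(m∞)`) and `R ≥ 0`, the chord function of `Xg` with
input `Pin` is `H.fn c` for a coefficient vector `c : ι → A` with a unit coordinate, and its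
divisor is `ΣPin + R + Σ out − m∞`:

* `HonestData.exists_coeff` : functions of the span with nonzero residue have coefficients in `A`,
  one of them a unit;
* `exists_honest_fn` : the chord function in the basis;
* `ord_eq_of_divOf_eq`, `evalAt_eq_zero_of_…` : the zeros read off from the divisor.
-/

set_option autoImplicit false

namespace Fermat.Agent.FF2.G4

open AlgebraicCurve Module Fermat.Agent.Red Fermat.Agent.FF2.G2 Fermat.Agent.FF2.Disc
  Fermat.Agent.FF2.HChord

variable {K F k Ft : Type*} [Field K] [Field F] [Algebra K F] [Field k] [Field Ft]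
  [Algebra k Ft] {A : ValuationSubring K} {π : A →+* k}
  {S : RedSetup (F := F) (Ft := Ft) A π}

/-- Two distinct indices with the same point: multiplicity at least two. -/
theorem two_le_sumPts_apply {n : ℕ} (P : Fin n → Place K F) {i i' : Fin n} (hne : i ≠ i')
    (h : P i = P i') : 2 ≤ sumPts P (P i) := by
  classical
  rw [sumPts_apply]
  have h1 : ∑ l ∈ ({i, i'} : Finset (Fin n)), (Finsupp.single (P l) (1 : ℤ)) (P i) ≤
      ∑ l, (Finsupp.single (P l) (1 : ℤ)) (P i) := by
    refine Finset.sum_le_sum_of_subset_of_nonneg (Finset.subset_univ _) fun l _ _ => ?_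
    rw [Finsupp.single_apply]
    split_ifs <;> norm_num
  rw [Finset.sum_pair hne, Finsupp.single_eq_same, ← h, Finsupp.single_eq_same] at h1
  linarith

variable {W : Type*} [CommRing W] {ι D Sg ν O : Type*} [Fintype ι]
  {j : W →+* A} {Y : Chord.ChordData W ι D Sg ν O} {Z : Set (Place K F)}

/-- **Coefficients in a reduced basis**: a function of the `K`-span of the basis with nonzero
residue is an `A`-combination of the basis with a unit coefficient. -/
theorem exists_coeff_of_mem_span (H : HonestData S j Y Z)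
    (hind : LinearIndependent k fun i => S.resF (H.e i)) {s : F}
    (hs : s ∈ Submodule.span K (Set.range H.e)) (hres : S.resF s ≠ 0) :
    ∃ c : ι → A, H.fn c = s ∧ ∃ i, IsUnit (c i) := by
  obtain ⟨a, ha⟩ := (Submodule.mem_span_range_iff_exists_fun K).mp hs
  have heO : ∀ i, H.e i ∈ S.O := fun i => (H.he i).1
  have haA : ∀ i, a i ∈ A := S.mem_of_sum_smul_mem H.e heO hind a (by
    rw [ha]
    exact S.mem_of_resF_ne_zero hres)
  refine ⟨fun i => ⟨a i, haA i⟩, ?_, ?_⟩
  · rw [← ha]
    unfold HonestData.fn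
    refine Finset.sum_congr rfl fun i _ => ?_
    rw [Algebra.smul_def]
  · by_contra hcon
    push Not at hcon
    obtain ⟨-, h2⟩ := S.resF_sum_smul H.e heO a haA
    rw [ha] at h2
    apply hres
    rw [h2]
    refine Finset.sum_eq_zero fun i _ => ?_
    have h3 : π ⟨a i, haA i⟩ = 0 := by
      by_contra h4
      exact hcon i ((NormalForm.pi_ne_zero_iff S _).1 h4)
    rw [h3, zero_smul]

variable {g n : ℕ} {C' : ChartData S g} (Xg : GC.ChordData C' n)
  (hπ : Function.Surjective π) (hF : RiemannPkg K F) (hFt : RiemannPkg k Ft)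
  (hg : genusFF K F ≤ g)

/-- **The chord function in the lattice basis.** -/
theorem exists_honest_fn (H : HonestData S j Y Z) (hR : 0 ≤ Xg.R)
    (hspan : riemannRochSpace (Finsupp.single Xg.Pinf (Xg.m : ℤ)) ≤
      Submodule.span K (Set.range H.e))
    (hind : LinearIndependent k fun i => S.resF (H.e i))
    {Pin : Fin n → Place K F} (hPin : ∀ i, S.r (Pin i) = Xg.Qb i) :
    haveI := hF.principal
    ∃ c : ι → A, (∃ i, IsUnit (c i)) ∧ H.fn c ≠ 0 ∧
      divOf K (H.fn c) = sumPts Pin + Xg.R + sumPts (Xg.out hπ hF hFt hg Pin) -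
        Finsupp.single Xg.Pinf (Xg.m : ℤ) := by
  have := hF.principal
  obtain ⟨s, hs, hdiv⟩ := Xg.exists_fn hπ hF hFt hg hPin
  have hres : S.resF s ≠ 0 := by
    rw [hs]
    exact Xg.f0b_ne_zero
  have hs0 : s ≠ 0 := S.ne_zero_of_resF_ne_zero hres
  have hsL : s ∈ riemannRochSpace (Finsupp.single Xg.Pinf (Xg.m : ℤ)) := by
    rw [mem_riemannRochSpace_iff_divOf]
    right
    rw [hdiv]
    have h1 := sumPts_nonneg Pin
    have h2 := sumPts_nonneg (Xg.out hπ hF hFt hg Pin)
    have h3 : sumPts Pin + Xg.R + sumPts (Xg.out hπ hF hFt hg Pin) -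
        Finsupp.single Xg.Pinf (Xg.m : ℤ) + Finsupp.single Xg.Pinf (Xg.m : ℤ) =
        sumPts Pin + Xg.R + sumPts (Xg.out hπ hF hFt hg Pin) := by abel
    rw [h3]
    exact add_nonneg (add_nonneg h1 hR) h2
  obtain ⟨c, hc, hu⟩ := exists_coeff_of_mem_span H hind (hspan hsL) hres
  refine ⟨c, hu, ?_, ?_⟩
  · rw [hc]
    exact hs0
  · rw [hc, hdiv]

/-- Reading orders off the divisor of the chord function, away from `∞`. -/
theorem ord_eq_of_divOf_eq [HasPrincipalDivisors K F] {s : F} {Pin : Fin n → Place K F}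
    {Pout : Fin g → Place K F} {R : Divisor K F} {Pinf : Place K F} {m : ℤ}
    (hdiv : divOf K s = sumPts Pin + R + sumPts Pout - Finsupp.single Pinf m)
    {P : Place K F} (hP : P ≠ Pinf) :
    P.ord s = sumPts Pin P + R P + sumPts Pout P := by
  classical
  rw [← divOf_apply, hdiv, Finsupp.sub_apply, Finsupp.add_apply, Finsupp.add_apply,
    Finsupp.single_apply, if_neg (fun h => hP h.symm), sub_zero]

end Fermat.Agent.FF2.G4
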