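import Mathlib
import Fermat.Agent.FF2.G4.HonestFn

/-!
# MOONSHOT S19, block (F6-b), part 2: the honest chord satisfies the exact divisibilities

One geometric chord `Xg : GC.ChordData C' n` (helper14) against one abstract chord datum
`Y : Chord.ChordData W ι D Sg ν (Fin g)` (helper2) realised by `H : HChord.HonestData S j Y Z`
(helper25).  The input points `Pin : Fin n → Place K F` are distributed over the discs of `H` by
`iX iY : D → Fin n` (two points per double disc) and `iZ : Sg → Fin n` (one per single disc).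

`honest_dvd` : there is a coefficient vector `c : ι → A` with a unit coordinate satisfying
EXACTLY the hypotheses `h1`–`h4` of helper2's `chord_congruence` over `B := A`, with
`x d = t_d (Pin (iX d))`, `y d = t_d (Pin (iY d))`, `z s = t_s (Pin (iZ s))`,
`w o = t'_o (Xg.out Pin o)`.
-/

set_option autoImplicit false

namespace Fermat.Agent.FF2.G4

open AlgebraicCurve Module Fermat.Agent.Red Fermat.Agent.FF2.G2 Fermat.Agent.FF2.Disc
  Fermat.Agent.FF2.HChord

variable {K F k Ft : Type*} [Field K] [Field F] [Algebra K F] [Field k] [Field Ft]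
  [Algebra k Ft] {A : ValuationSubring K} {π : A →+* k}
  {S : RedSetup (F := F) (Ft := Ft) A π}

/-- A point of a disc whose excluded set contains `∞` is not `∞`. -/
theorem ne_of_mem_disc {Z : Set (Place K F)} (T : DiscCoord S Z) {P Pinf : Place K F}
    (hP : P ∈ T.disc) (hinf : Pinf ∈ Z) : P ≠ Pinf := by
  rintro rfl
  exact T.hP₀ ⟨P, hinf, T.mem_disc.1 hP⟩

variable {g n : ℕ} {C' : ChartData S g} (Xg : GC.ChordData C' n)
  {W : Type*} [CommRing W] [Algebra W A] {j : W →+* A}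
  (hj : ∀ w : W, algebraMap W A w = j w)
  {ι D Sg ν : Type*} [Fintype ι] {Y : Chord.ChordData W ι D Sg ν (Fin g)}
  {Z : Set (Place K F)} (H : HonestData S j Y Z)
  (hπ : Function.Surjective π) (hF : RiemannPkg K F) (hFt : RiemannPkg k Ft)
  (hg : genusFF K F ≤ g)

include hj in
/-- **The honest chord function satisfies the exact divisibilities of the chord congruence.** -/
theorem honest_dvd (hR : 0 ≤ Xg.R)
    (hspan : riemannRochSpace (Finsupp.single Xg.Pinf (Xg.m : ℤ)) ≤
      Submodule.span K (Set.range H.e))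
    (hind : LinearIndependent k fun i => S.resF (H.e i))
    (hZinf : Xg.Pinf ∈ Z)
    (hν : ∀ m, (H.lν m : ℤ) < Xg.R (H.Cν m).P₀)
    (hCO : ∀ o, S.r (H.CO o).P₀ = C'.Pb o)
    {Pin : Fin n → Place K F} (hPin : ∀ i, S.r (Pin i) = Xg.Qb i)
    (iX iY : D → Fin n) (hXY : ∀ d, iX d ≠ iY d)
    (hiX : ∀ d, Xg.Qb (iX d) = S.r (H.CD d).P₀) (hiY : ∀ d, Xg.Qb (iY d) = S.r (H.CD d).P₀)
    (iZ : Sg → Fin n) (hiZ : ∀ s, Xg.Qb (iZ s) = S.r (H.CS s).P₀)
    (xs ys : D → A) (hxs : ∀ d, ((xs d : A) : K) = evalAt (Pin (iX d)) (H.CD d).t)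
    (hys : ∀ d, ((ys d : A) : K) = evalAt (Pin (iY d)) (H.CD d).t)
    (zs : Sg → A) (hzs : ∀ s, ((zs s : A) : K) = evalAt (Pin (iZ s)) (H.CS s).t)
    (ws : Fin g → A)
    (hws : ∀ o, ((ws o : A) : K) = evalAt (Xg.out hπ hF hFt hg Pin o) (H.CO o).t) :
    ∃ c : ι → A, (∃ i, IsUnit (c i)) ∧
      (∀ d, (PowerSeries.X - PowerSeries.C (xs d)) * (PowerSeries.X - PowerSeries.C (ys d)) ∣
        Chord.tay A (Y.τD d) c) ∧
      (∀ s, (PowerSeries.X - PowerSeries.C (zs s)) ∣ Chord.tay A (Y.τS s) c) ∧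
      (Y.ρ0.map (algebraMap W A)).mulVec c = 0 ∧
      (∀ o, (PowerSeries.X - PowerSeries.C (ws o)) ∣ Chord.tay A (Y.τO o) c) := by
  have := hF.principal
  obtain ⟨c, hu, hc0, hdiv⟩ := exists_honest_fn Xg hπ hF hFt hg H hR hspan hind hPin
  set Pout := Xg.out hπ hF hFt hg Pin with hPout
  have hin_nn := sumPts_nonneg Pin
  have hout_nn := sumPts_nonneg Pout
  -- orders at the input points
  have hordin : ∀ (i : Fin n), Pin i ≠ Xg.Pinf → 1 ≤ (Pin i).ord (H.fn c) := by
    intro i hne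
    rw [ord_eq_of_divOf_eq hdiv hne]
    have h1 := one_le_sumPts_apply Pin i
    have h2 := hR (Pin i)
    have h3 := hout_nn (Pin i)
    rw [Finsupp.zero_apply] at h2 h3
    linarith
  have hordout : ∀ (o : Fin g), Pout o ≠ Xg.Pinf → 1 ≤ (Pout o).ord (H.fn c) := by
    intro o hne
    rw [ord_eq_of_divOf_eq hdiv hne]
    have h1 := one_le_sumPts_apply Pout o
    have h2 := hR (Pout o)
    have h3 := hin_nn (Pout o)
    rw [Finsupp.zero_apply] at h2 h3
    linarith
  refine ⟨c, hu, fun d => ?_, fun s => ?_, ?_, fun o => ?_⟩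
  · -- double conditions
    have hP : Pin (iX d) ∈ (H.CD d).disc := by
      rw [DiscCoord.mem_disc, hPin, hiX]
    have hQ : Pin (iY d) ∈ (H.CD d).disc := by
      rw [DiscCoord.mem_disc, hPin, hiY]
    have hPne := ne_of_mem_disc (H.CD d) hP hZinf
    have hQne := ne_of_mem_disc (H.CD d) hQ hZinf
    have hzP : evalAt (Pin (iX d)) (H.fn c) = 0 :=
      ((H.CD d).ring_evalAt_eq_zero_iff hF hP (H.fn_mem_ring (H.CD d) c)).2
        (Or.inr (by have := hordin (iX d) hPne; omega))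
    have hzQ : evalAt (Pin (iY d)) (H.fn c) = 0 :=
      ((H.CD d).ring_evalAt_eq_zero_iff hF hQ (H.fn_mem_ring (H.CD d) c)).2
        (Or.inr (by have := hordin (iY d) hQne; omega))
    have hdouble : Pin (iX d) = Pin (iY d) → H.fn c = 0 ∨ 2 ≤ (Pin (iX d)).ord (H.fn c) := by
      intro heq
      right
      rw [ord_eq_of_divOf_eq hdiv hPne]
      have h1 := two_le_sumPts_apply Pin (hXY d) heq
      have h2 := hR (Pin (iX d))
      have h3 := hout_nn (Pin (iX d))
      rw [Finsupp.zero_apply] at h2 h3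
      linarith
    have h := H.mul_dvd_tay_τD hF hj c d hP hQ hzP hzQ hdouble
    have e1 : (⟨evalAt (Pin (iX d)) (H.CD d).t, (H.CD d).evalAt_t_mem hF hP⟩ : A) = xs d :=
      Subtype.ext (hxs d).symm
    have e2 : (⟨evalAt (Pin (iY d)) (H.CD d).t, (H.CD d).evalAt_t_mem hF hQ⟩ : A) = ys d :=
      Subtype.ext (hys d).symm
    rwa [e1, e2] at h
  · -- single conditions
    have hP : Pin (iZ s) ∈ (H.CS s).disc := by
      rw [DiscCoord.mem_disc, hPin, hiZ]
    have hPne := ne_of_mem_disc (H.CS s) hP hZinf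
    have hz : evalAt (Pin (iZ s)) (H.fn c) = 0 :=
      ((H.CS s).ring_evalAt_eq_zero_iff hF hP (H.fn_mem_ring (H.CS s) c)).2
        (Or.inr (by have := hordin (iZ s) hPne; omega))
    have h := H.dvd_tay_τS hF hj c s hP hz
    have e1 : (⟨evalAt (Pin (iZ s)) (H.CS s).t, (H.CS s).evalAt_t_mem hF hP⟩ : A) = zs s :=
      Subtype.ext (hzs s).symm
    rwa [e1] at h
  · -- the fixed jets
    refine H.ρ0_mulVec_eq_zero hF hj c fun m => ?_
    refine H.coeff_eq_zero_of_lt_ord hF c m hc0 ?_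
    have hne := ne_of_mem_disc (H.Cν m) (H.Cν m).P₀_mem_disc hZinf
    rw [ord_eq_of_divOf_eq hdiv hne]
    have h1 := hin_nn (H.Cν m).P₀
    have h3 := hout_nn (H.Cν m).P₀
    rw [Finsupp.zero_apply] at h1 h3
    have h2 := hν m
    linarith
  · -- the output points
    have hP : Pout o ∈ (H.CO o).disc := by
      rw [DiscCoord.mem_disc, hCO]
      exact Xg.out_mem_Disc hπ hF hFt hg Pin o
    have hPne := ne_of_mem_disc (H.CO o) hP hZinf
    have hz : evalAt (Pout o) (H.fn c) = 0 :=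
      ((H.CO o).ring_evalAt_eq_zero_iff hF hP (H.fn_mem_ring (H.CO o) c)).2
        (Or.inr (by have := hordout o hPne; omega))
    have h := H.dvd_tay_τO hF hj c o hP hz
    have e1 : (⟨evalAt (Pout o) (H.CO o).t, (H.CO o).evalAt_t_mem hF hP⟩ : A) = ws o :=
      Subtype.ext (hws o).symm
    rwa [e1] at h

end Fermat.Agent.FF2.G4
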