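import Mathlib
import Fermat.Agent.FF2.G4.TwoChords
import Fermat.Agent.FF2.G2.Coord

/-!
# MOONSHOT S19, block (F6-a): the two-chord composite in coordinates

With disc coordinates `X : G2.CoordData C` on the chart `C`, the composite of the two chords is a
map `addFun : (𝔪_A)^g × (𝔪_A)^g → K^g` of the coordinates alone,

`addFun a b j = t_j (X2.out (X1.out (P(a) ⊔ P(b))) j)`,

and `x (D + D' + c0) = addFun (x D) (x D')` on the kernel of reduction.  The bridge (F5) identifies
`addFun` with the specialisation of the universal series `Wser₂ ∘ Wser₁`.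
-/

set_option autoImplicit false

namespace Fermat.Agent.FF2.G4

open AlgebraicCurve Module Fermat.Agent.Red Fermat.Agent.FF2.G2 Fermat.Agent.FF2.GC
  Fermat.Agent.FF2.Disc

variable {K F k Ft : Type*} [Field K] [Field F] [Algebra K F] [Field k] [Field Ft]
  [Algebra k Ft] {A : ValuationSubring K} {π : A →+* k}
  {S : RedSetup (F := F) (Ft := Ft) A π}
  {g : ℕ} {C C' : ChartData S g} (X1 : ChordData C' (g + g)) (X2 : ChordData C g)
  (X : CoordData C)
  (hπ : Function.Surjective π) (hF : RiemannPkg K F) (hFt : RiemannPkg k Ft)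
  (hg : genusFF K F ≤ g)

/-- The input of the first chord attached to two coordinate vectors. -/
noncomputable def chordIn (a b : Fin g → {c : A // π c = 0}) : Fin (g + g) → Place K F :=
  Fin.append (X.ptOf hF a) (X.ptOf hF b)

/-- The intermediate points (in the discs of `C'`). -/
noncomputable def midPts (a b : Fin g → {c : A // π c = 0}) : Fin g → Place K F :=
  X1.out hπ hF hFt hg (chordIn X hF a b)

/-- The output points (back in the discs of `C`). -/
noncomputable def outPts (a b : Fin g → {c : A // π c = 0}) : Fin g → Place K F :=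
  X2.out hπ hF hFt hg (midPts X1 X hπ hF hFt hg a b)

/-- **The addition map in coordinates** defined by the two chords. -/
noncomputable def addFun (a b : Fin g → {c : A // π c = 0}) (j : Fin g) : K :=
  evalAt (outPts X1 X2 X hπ hF hFt hg a b j) (X.T j).t

theorem midPts_mem_Disc (a b : Fin g → {c : A // π c = 0}) (j : Fin g) :
    midPts X1 X hπ hF hFt hg a b j ∈ C'.Disc j :=
  X1.out_mem_Disc hπ hF hFt hg _ j

theorem outPts_mem_Disc (a b : Fin g → {c : A // π c = 0}) (j : Fin g) :
    outPts X1 X2 X hπ hF hFt hg a b j ∈ C.Disc j :=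
  X2.out_mem_Disc hπ hF hFt hg _ j

variable (hQ1 : ∀ i, X1.Qb i = Fin.append C.Pb C.Pb i) (hQ2 : ∀ j, X2.Qb j = C'.Pb j)

include hQ1 hQ2 in
/-- **(F6-a), coordinate form**: `x (D + D' + c0) = addFun (x D) (x D')`. -/
theorem x_add_const_eq_addFun {D D' : Divisor K F} (hD : D ∈ kerRed S) (hD' : D' ∈ kerRed S)
    (j : Fin g) :
    (((X.x hF hFt hg (D + D' + twoChordConst X1 X2) j : {c : A // π c = 0}) : A) : K) =
      addFun X1 X2 X hπ hF hFt hg (X.x hF hFt hg D) (X.x hF hFt hg D') j := by
  rw [X.x_coe, addFun, outPts, midPts, chordIn, X.ptOf_x, X.ptOf_x,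
    out_out_eq_pt X1 X2 hπ hF hFt hg hQ1 hQ2 hD hD']

end Fermat.Agent.FF2.G4
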