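import Mathlib
import Fermat.Agent.FF2.G4.HonestDvd
import Fermat.Agent.FF2.G4.TwoChordsCoord
import Fermat.Agent.FF2.ChordFin.Two

/-!
# MOONSHOT S19, block (F6-b), part 3: THE ADDITION CONGRUENCE (divisor level)

`C`, `C'` two charts, `X1 : GC.ChordData C' (g + g)`, `X2 : GC.ChordData C g` the two geometric
chords (helper14/helper15), `X : G2.CoordData C` the coordinates of the chart `C`;
`Y1`, `Y2` the abstract chord data over the base ring `W` (helper2) realised by the honest data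
`H1`, `H2` (helper25), with reduced bases of `L(m₁∞₁)`, `L(m₂∞₂)`.

* `addFun_congruence` : for every `N` there are polynomials `Q o ∈ W[X_d, Y_d]` such that for every
  ideal `J ⊇ 𝔪_W A` of the valuation ring `A` and all coordinate vectors `a, b` whose entries, whose
  intermediate coordinates and whose output coordinates lie in `J`:
  `addFun a b o ≡ Q o (a, b)  mod J ^ (N + 1)`.
* `mid_eq_pt` : the intermediate points are the chart points of the class `midConst − D − D'`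
  in the chart `C'` (so their coordinates are `X'.x (midConst − D − D')`).
* `x_add_congruence` : `x (D + D' + c0) o ≡ Q o (x D, x D')  mod J ^ (N + 1)` on the kernel of
  reduction, `c0 = twoChordConst X1 X2`.
-/

set_option autoImplicit false

namespace Fermat.Agent.FF2.G4

open AlgebraicCurve Module Fermat.Agent.Red Fermat.Agent.FF2.G2 Fermat.Agent.FF2.Disc
  Fermat.Agent.FF2.HChord IsLocalRing

variable {K F k Ft : Type*} [Field K] [Field F] [Algebra K F] [Field k] [Field Ft]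
  [Algebra k Ft] {A : ValuationSubring K} {π : A →+* k}
  {S : RedSetup (F := F) (Ft := Ft) A π}
  {g : ℕ} {C C' : ChartData S g} (X1 : GC.ChordData C' (g + g)) (X2 : GC.ChordData C g)
  (X : CoordData C)
  (hπ : Function.Surjective π) (hF : RiemannPkg K F) (hFt : RiemannPkg k Ft)
  (hg : genusFF K F ≤ g)
  (hQ1 : ∀ i, X1.Qb i = Fin.append C.Pb C.Pb i) (hQ2 : ∀ j, X2.Qb j = C'.Pb j)

include hQ1 in
/-- The inputs built from coordinates are legal inputs of the first chord. -/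
theorem r_chordIn (a b : Fin g → {c : A // π c = 0}) (i : Fin (g + g)) :
    S.r (chordIn X hF a b i) = X1.Qb i := by
  rw [hQ1 i, chordIn]
  refine Fin.addCases (fun d => ?_) (fun d => ?_) i
  · rw [Fin.append_left, Fin.append_left]
    exact X.ptOf_mem_Disc hF a d
  · rw [Fin.append_right, Fin.append_right]
    exact X.ptOf_mem_Disc hF b d

variable {W : Type*} [CommRing W] [IsLocalRing W] [Algebra W A] {j : W →+* A}
  (hj : ∀ w : W, algebraMap W A w = j w)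
  {ι₁ ι₂ ν₁ ν₂ : Type*} [Fintype ι₁] [Fintype ι₂] [Fintype ν₁] [Fintype ν₂]
  [DecidableEq ν₁] [DecidableEq ν₂]
  {Y1 : Chord.ChordData W ι₁ (Fin g) Empty ν₁ (Fin g)}
  {Y2 : Chord.ChordData W ι₂ Empty (Fin g) ν₂ (Fin g)}
  {Z1 Z2 : Set (Place K F)} (H1 : HonestData S j Y1 Z1) (H2 : HonestData S j Y2 Z2)

include hj hQ1 hQ2 in
/-- **(F6-b) THE ADDITION CONGRUENCE in coordinates.** -/
theorem addFun_congruence
    -- special fibre of the first chord
    (hcard₁ : Fintype.card ι₁ = Fintype.card (Fin g ⊕ Fin g ⊕ Empty ⊕ ν₁) + 1)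
    (H1₁ : Function.Surjective ((Chord.cond0 Y1).map (residue W)).mulVecLin)
    (f0₁ : ι₁ → W) (hf0u₁ : ∃ i, IsUnit (f0₁ i))
    (hf0₁ : ∀ c, (Chord.cond0 Y1).mulVec f0₁ c ∈ maximalIdeal W)
    (hO0₁ : ∀ o, ∑ i, f0₁ i * PowerSeries.coeff 0 (Y1.τO o i) ∈ maximalIdeal W)
    (hO1₁ : ∀ o, IsUnit (∑ i, f0₁ i * PowerSeries.coeff 1 (Y1.τO o i)))
    -- special fibre of the return chord
    (hcard₂ : Fintype.card ι₂ = Fintype.card (Empty ⊕ Empty ⊕ Fin g ⊕ ν₂) + 1)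
    (H1₂ : Function.Surjective ((Chord.cond0 Y2).map (residue W)).mulVecLin)
    (f0₂ : ι₂ → W) (hf0u₂ : ∃ i, IsUnit (f0₂ i))
    (hf0₂ : ∀ c, (Chord.cond0 Y2).mulVec f0₂ c ∈ maximalIdeal W)
    (hO0₂ : ∀ o, ∑ i, f0₂ i * PowerSeries.coeff 0 (Y2.τO o i) ∈ maximalIdeal W)
    (hO1₂ : ∀ o, IsUnit (∑ i, f0₂ i * PowerSeries.coeff 1 (Y2.τO o i)))
    -- the first chord against its honest data
    (hR1 : 0 ≤ X1.R)
    (hspan1 : riemannRochSpace (Finsupp.single X1.Pinf (X1.m : ℤ)) ≤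
      Submodule.span K (Set.range H1.e))
    (hind1 : LinearIndependent k fun i => S.resF (H1.e i))
    (hZinf1 : X1.Pinf ∈ Z1)
    (hν1 : ∀ m, (H1.lν m : ℤ) < X1.R (H1.Cν m).P₀)
    (hCD1 : ∀ d, S.r (H1.CD d).P₀ = C.Pb d) (hCD1t : ∀ d, (H1.CD d).t = (X.T d).t)
    (hCO1 : ∀ o, S.r (H1.CO o).P₀ = C'.Pb o)
    -- the return chord against its honest data
    (hR2 : 0 ≤ X2.R)
    (hspan2 : riemannRochSpace (Finsupp.single X2.Pinf (X2.m : ℤ)) ≤
      Submodule.span K (Set.range H2.e))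
    (hind2 : LinearIndependent k fun i => S.resF (H2.e i))
    (hZinf2 : X2.Pinf ∈ Z2)
    (hν2 : ∀ m, (H2.lν m : ℤ) < X2.R (H2.Cν m).P₀)
    (hCS2 : ∀ o, S.r (H2.CS o).P₀ = C'.Pb o) (hCS2t : ∀ o, (H2.CS o).t = (H1.CO o).t)
    (hCO2 : ∀ o, S.r (H2.CO o).P₀ = C.Pb o) (hCO2t : ∀ o, (H2.CO o).t = (X.T o).t)
    (N : ℕ) :
    ∃ Q : Fin g → MvPolynomial (Fin g ⊕ Fin g) W,
      ∀ (J : Ideal A) (_hWJ : ∀ w ∈ maximalIdeal W, algebraMap W A w ∈ J)
        (a b : Fin g → {c : A // π c = 0})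
        (_ha : ∀ d, (a d : A) ∈ J) (_hb : ∀ d, (b d : A) ∈ J)
        (wm : Fin g → A)
        (_hwm : ∀ o, ((wm o : A) : K) =
          evalAt (midPts X1 X hπ hF hFt hg a b o) (H1.CO o).t)
        (_hwmJ : ∀ o, wm o ∈ J)
        (vo : Fin g → A)
        (_hvo : ∀ o, ((vo o : A) : K) = addFun X1 X2 X hπ hF hFt hg a b o)
        (_hvoJ : ∀ o, vo o ∈ J) (o : Fin g),
        vo o - MvPolynomial.aeval (Sum.elim (fun d => (a d : A)) (fun d => (b d : A))) (Q o) ∈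
          J ^ (N + 1) := by
  obtain ⟨Q, hQ⟩ := ChordFin.two_chord_congruence Y1 hcard₁ H1₁ f0₁ hf0u₁ hf0₁ hO0₁ hO1₁
    Y2 hcard₂ H1₂ f0₂ hf0u₂ hf0₂ hO0₂ hO1₂ N
  refine ⟨Q, ?_⟩
  intro J hWJ a b ha hb wm hwm hwmJ vo hvo hvoJ o
  -- the first chord
  obtain ⟨c₁, hu₁, h1, -, h3, h4⟩ := honest_dvd X1 hj H1 hπ hF hFt hg hR1 hspan1 hind1 hZinf1
    hν1 hCO1 (Pin := chordIn X hF a b) (r_chordIn X1 X hF hQ1 a b)
    (fun d => Fin.castAdd g d) (fun d => Fin.natAdd g d)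
    (fun d h => by
      have := congrArg Fin.val h
      simp only [Fin.val_castAdd, Fin.val_natAdd] at this
      omega)
    (fun d => by rw [hQ1, Fin.append_left, hCD1])
    (fun d => by rw [hQ1, Fin.append_right, hCD1])
    Empty.elim (fun s => s.elim)
    (fun d => (a d : A)) (fun d => (b d : A))
    (fun d => by rw [chordIn, Fin.append_left, hCD1t, X.evalAt_ptOf])
    (fun d => by rw [chordIn, Fin.append_right, hCD1t, X.evalAt_ptOf])
    Empty.elim (fun s => s.elim) wm hwm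
  -- the return chord
  obtain ⟨c₂, hu₂, -, h2', h3', h4'⟩ := honest_dvd X2 hj H2 hπ hF hFt hg hR2 hspan2 hind2 hZinf2
    hν2 hCO2 (Pin := midPts X1 X hπ hF hFt hg a b) (r_out1 X1 X2 hπ hF hFt hg hQ2 _)
    Empty.elim Empty.elim (fun d => d.elim) (fun d => d.elim) (fun d => d.elim)
    id (fun s => by rw [id, hQ2, hCS2])
    Empty.elim Empty.elim (fun d => d.elim) (fun d => d.elim)
    wm (fun s => by rw [id, hCS2t]; exact hwm s)
    vo (fun o' => by rw [hvo, addFun, outPts, hCO2t])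
  exact hQ J hWJ (fun d => (a d : A)) (fun d => (b d : A)) ha hb c₁ hu₁ wm hwmJ h1 h3 h4
    c₂ hu₂ vo hvoJ h2' h3' h4' o

/-! ### The intermediate points as chart points of `C'` -/

variable (C) in
/-- The constant of the first chord: `m₁∞₁ − R₁ − 2 Σ P0 − Σ P0'`. -/
noncomputable def midConst : Divisor K F :=
  Finsupp.single X1.Pinf (X1.m : ℤ) - X1.R - sumPts C.P0 - sumPts C.P0 - sumPts C'.P0

/-- The class identity behind the first chord. -/
theorem mid_sub_mem_principal {D D' : Divisor K F} (hD : D ∈ kerRed S) (hD' : D' ∈ kerRed S) :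
    (X1.inDiv (Fin.append (C.pt hF hFt hg D) (C.pt hF hFt hg D')) - sumPts C'.P0) -
      (midConst C X1 - D - D') ∈ Divisor.principal (K := K) (F := F) := by
  have h2 := C.pt_spec hF hFt hg hD
  have h3 := C.pt_spec hF hFt hg hD'
  have h4 := neg_mem (add_mem h2 h3)
  have e : -((sumPts (C.pt hF hFt hg D) - sumPts C.P0 - D) +
      (sumPts (C.pt hF hFt hg D') - sumPts C.P0 - D')) =
      (X1.inDiv (Fin.append (C.pt hF hFt hg D) (C.pt hF hFt hg D')) - sumPts C'.P0) -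
        (midConst C X1 - D - D') := by
    rw [GC.ChordData.inDiv, sumPts_append, midConst]
    abel
  rwa [e] at h4

include hπ hF hFt hg hQ1 in
theorem midConst_mem_kerRed : midConst C X1 ∈ kerRed S := by
  have h0 : (0 : Divisor K F) ∈ kerRed S := zero_mem _
  have h1 := mid_sub_mem_principal (C := C) X1 hF hFt hg h0 h0
  have h2 := X1.inDiv_sub_mem_kerRed hπ hF hFt hg
    (Pin := Fin.append (C.pt hF hFt hg 0) (C.pt hF hFt hg 0))
    (r_append_pt X1 hF hFt hg hQ1 0 0)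
  have h3 := sub_mem h2 (principal_le_kerRed S hF h1)
  have e : X1.inDiv (Fin.append (C.pt hF hFt hg 0) (C.pt hF hFt hg 0)) - sumPts C'.P0 -
      (X1.inDiv (Fin.append (C.pt hF hFt hg 0) (C.pt hF hFt hg 0)) - sumPts C'.P0 -
        (midConst C X1 - 0 - 0)) = midConst C X1 := by abel
  rwa [e] at h3

include hQ1 in
/-- **The intermediate points** of the two-chord composite are the chart points (in `C'`) of the
class `midConst − D − D'`. -/
theorem out1_eq_pt {D D' : Divisor K F} (hD : D ∈ kerRed S) (hD' : D' ∈ kerRed S) :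
    X1.out hπ hF hFt hg (Fin.append (C.pt hF hFt hg D) (C.pt hF hFt hg D')) =
      C'.pt hF hFt hg (midConst C X1 - D - D') := by
  have hc := midConst_mem_kerRed X1 hπ hF hFt hg hQ1
  have hPin := r_append_pt X1 hF hFt hg hQ1 D D'
  rw [X1.out_eq_pt hπ hF hFt hg hPin]
  rw [C'.pt_eq_pt_iff hπ hF hFt hg (X1.inDiv_sub_mem_kerRed hπ hF hFt hg hPin)
    (sub_mem (sub_mem hc hD) hD')]
  exact mid_sub_mem_principal (C := C) X1 hF hFt hg hD hD'

include hQ1 in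
/-- Coordinate form: `midPts (x D) (x D') = C'.pt (midConst − D − D')`. -/
theorem midPts_x_eq_pt {D D' : Divisor K F} (hD : D ∈ kerRed S) (hD' : D' ∈ kerRed S) :
    midPts X1 X hπ hF hFt hg (X.x hF hFt hg D) (X.x hF hFt hg D') =
      C'.pt hF hFt hg (midConst C X1 - D - D') := by
  rw [midPts, chordIn, X.ptOf_x, X.ptOf_x]
  exact out1_eq_pt X1 hπ hF hFt hg hQ1 hD hD'

include hπ hj hQ1 hQ2 in
/-- **(F6-b) THE ADDITION CONGRUENCE on the kernel of reduction**: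
`x (D + D' + c0) ≡ Q (x D, x D')  mod J ^ (N + 1)`, `c0 = twoChordConst X1 X2`, as soon as the
coordinates `x D`, `x D'`, `x' (midConst − D − D')` (chart `C'`) and `x (D + D' + c0)` lie in `J`.
The polynomials `Q` depend only on the chord data and on `N`. -/
theorem x_add_congruence (X' : CoordData C')
    (hcard₁ : Fintype.card ι₁ = Fintype.card (Fin g ⊕ Fin g ⊕ Empty ⊕ ν₁) + 1)
    (H1₁ : Function.Surjective ((Chord.cond0 Y1).map (residue W)).mulVecLin)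
    (f0₁ : ι₁ → W) (hf0u₁ : ∃ i, IsUnit (f0₁ i))
    (hf0₁ : ∀ c, (Chord.cond0 Y1).mulVec f0₁ c ∈ maximalIdeal W)
    (hO0₁ : ∀ o, ∑ i, f0₁ i * PowerSeries.coeff 0 (Y1.τO o i) ∈ maximalIdeal W)
    (hO1₁ : ∀ o, IsUnit (∑ i, f0₁ i * PowerSeries.coeff 1 (Y1.τO o i)))
    (hcard₂ : Fintype.card ι₂ = Fintype.card (Empty ⊕ Empty ⊕ Fin g ⊕ ν₂) + 1)
    (H1₂ : Function.Surjective ((Chord.cond0 Y2).map (residue W)).mulVecLin)
    (f0₂ : ι₂ → W) (hf0u₂ : ∃ i, IsUnit (f0₂ i))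
    (hf0₂ : ∀ c, (Chord.cond0 Y2).mulVec f0₂ c ∈ maximalIdeal W)
    (hO0₂ : ∀ o, ∑ i, f0₂ i * PowerSeries.coeff 0 (Y2.τO o i) ∈ maximalIdeal W)
    (hO1₂ : ∀ o, IsUnit (∑ i, f0₂ i * PowerSeries.coeff 1 (Y2.τO o i)))
    (hR1 : 0 ≤ X1.R)
    (hspan1 : riemannRochSpace (Finsupp.single X1.Pinf (X1.m : ℤ)) ≤
      Submodule.span K (Set.range H1.e))
    (hind1 : LinearIndependent k fun i => S.resF (H1.e i))
    (hZinf1 : X1.Pinf ∈ Z1)
    (hν1 : ∀ m, (H1.lν m : ℤ) < X1.R (H1.Cν m).P₀)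
    (hCD1 : ∀ d, S.r (H1.CD d).P₀ = C.Pb d) (hCD1t : ∀ d, (H1.CD d).t = (X.T d).t)
    (hCO1 : ∀ o, S.r (H1.CO o).P₀ = C'.Pb o) (hCO1t : ∀ o, (H1.CO o).t = (X'.T o).t)
    (hR2 : 0 ≤ X2.R)
    (hspan2 : riemannRochSpace (Finsupp.single X2.Pinf (X2.m : ℤ)) ≤
      Submodule.span K (Set.range H2.e))
    (hind2 : LinearIndependent k fun i => S.resF (H2.e i))
    (hZinf2 : X2.Pinf ∈ Z2)
    (hν2 : ∀ m, (H2.lν m : ℤ) < X2.R (H2.Cν m).P₀)
    (hCS2 : ∀ o, S.r (H2.CS o).P₀ = C'.Pb o) (hCS2t : ∀ o, (H2.CS o).t = (X'.T o).t)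
    (hCO2 : ∀ o, S.r (H2.CO o).P₀ = C.Pb o) (hCO2t : ∀ o, (H2.CO o).t = (X.T o).t)
    (N : ℕ) :
    ∃ Q : Fin g → MvPolynomial (Fin g ⊕ Fin g) W,
      ∀ (J : Ideal A) (_hWJ : ∀ w ∈ maximalIdeal W, algebraMap W A w ∈ J)
        {D D' : Divisor K F} (_hD : D ∈ kerRed S) (_hD' : D' ∈ kerRed S)
        (_hxD : ∀ d, ((X.x hF hFt hg D d : {c : A // π c = 0}) : A) ∈ J)
        (_hxD' : ∀ d, ((X.x hF hFt hg D' d : {c : A // π c = 0}) : A) ∈ J)
        (_hmid : ∀ o, ((X'.x hF hFt hg (midConst C X1 - D - D') o : {c : A // π c = 0}) : A) ∈ J)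
        (_hout : ∀ o,
          ((X.x hF hFt hg (D + D' + twoChordConst X1 X2) o : {c : A // π c = 0}) : A) ∈ J)
        (o : Fin g),
        ((X.x hF hFt hg (D + D' + twoChordConst X1 X2) o : {c : A // π c = 0}) : A) -
          MvPolynomial.aeval (Sum.elim
            (fun d => ((X.x hF hFt hg D d : {c : A // π c = 0}) : A))
            (fun d => ((X.x hF hFt hg D' d : {c : A // π c = 0}) : A))) (Q o) ∈ J ^ (N + 1) := by
  obtain ⟨Q, hQ⟩ := addFun_congruence X1 X2 X hπ hF hFt hg hQ1 hQ2 hj H1 H2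
    hcard₁ H1₁ f0₁ hf0u₁ hf0₁ hO0₁ hO1₁ hcard₂ H1₂ f0₂ hf0u₂ hf0₂ hO0₂ hO1₂
    hR1 hspan1 hind1 hZinf1 hν1 hCD1 hCD1t hCO1
    hR2 hspan2 hind2 hZinf2 hν2 hCS2 (fun o => (hCS2t o).trans (hCO1t o).symm) hCO2 hCO2t N
  refine ⟨Q, ?_⟩
  intro J hWJ D D' hD hD' hxD hxD' hmid hout o
  refine hQ J hWJ (X.x hF hFt hg D) (X.x hF hFt hg D') hxD hxD'
    (fun o => ((X'.x hF hFt hg (midConst C X1 - D - D') o : {c : A // π c = 0}) : A))
    (fun o => ?_) hmid
    (fun o => ((X.x hF hFt hg (D + D' + twoChordConst X1 X2) o : {c : A // π c = 0}) : A))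
    (fun o => x_add_const_eq_addFun X1 X2 X hπ hF hFt hg hQ1 hQ2 hD hD' o) hout o
  rw [X'.x_coe, midPts_x_eq_pt X1 X hπ hF hFt hg hQ1 hD hD', hCO1t]

end Fermat.Agent.FF2.G4
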