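import Mathlib
import Fermat.Agent.FF2.G4.AddCongr
import Fermat.Agent.FF2.G2.Pic

/-!
# MOONSHOT S19, block (F6-b), part 4: the addition congruence for FINITE FAMILIES, `∃ b` form

The only input about the valuation ring `A` beyond `AddCongr.lean` is

`hIdeal : ∀ s : Finset A, (∀ a ∈ s, π a = 0) → ∃ (J : Ideal A) (e : ℕ),
    (∀ w ∈ 𝔪_W, algebraMap W A w ∈ J) ∧ (∀ a ∈ s, a ∈ J) ∧ ∀ N, J ^ (e * N) ≤ span {ϖ ^ N}`

(finitely many non-units lie in one ideal with `J ^ (e N) ⊆ ϖ ^ N A`: helper23's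
`Lam.exists_ideal_pow_le` at `A = P ⊂ ℚ̄`, `ϖ = ℓ`).

* `x_add_finite` : for a finite set `U` of divisors of the kernel of reduction and `n`, polynomials
  `Q o ∈ W[X_d, Y_d]` with `x (D + D' + c0) o − Q o (x D, x D') = ϖ ^ n * b`, `b ∈ A`, for all
  `D, D' ∈ U`;
* `twoChordClass`, `xPic_add_finite` : the same on `Pic⁰` (`G2.kerRedPic`, `CoordData.xPic`).
-/

set_option autoImplicit false

namespace Fermat.Agent.FF2.G4

open AlgebraicCurve Module Fermat.Agent.Red Fermat.Agent.FF2.G2 Fermat.Agent.FF2.Disc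
  Fermat.Agent.FF2.HChord IsLocalRing

variable {K F k Ft : Type*} [Field K] [Field F] [Algebra K F] [Field k] [Field Ft]
  [Algebra k Ft] {A : ValuationSubring K} {π : A →+* k}
  {S : RedSetup (F := F) (Ft := Ft) A π}
  {g : ℕ} {C C' : ChartData S g} (X1 : GC.ChordData C' (g + g)) (X2 : GC.ChordData C g)
  (X : CoordData C)
  (hπ : Function.Surjective π) (hF : RiemannPkg K F) (hFt : RiemannPkg k Ft)
  (hg : genusFF K F ≤ g)
  (hQ1 : ∀ i, X1.Qb i = Fin.append C.Pb C.Pb i) (hQ2 : ∀ j, X2.Qb j = C'.Pb j)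
  {W : Type*} [CommRing W] [IsLocalRing W] [Algebra W A] {j : W →+* A}
  (hj : ∀ w : W, algebraMap W A w = j w)
  {ι₁ ι₂ ν₁ ν₂ : Type*} [Fintype ι₁] [Fintype ι₂] [Fintype ν₁] [Fintype ν₂]
  [DecidableEq ν₁] [DecidableEq ν₂]
  {Y1 : Chord.ChordData W ι₁ (Fin g) Empty ν₁ (Fin g)}
  {Y2 : Chord.ChordData W ι₂ Empty (Fin g) ν₂ (Fin g)}
  {Z1 Z2 : Set (Place K F)} (H1 : HonestData S j Y1 Z1) (H2 : HonestData S j Y2 Z2)

include hπ hj hQ1 hQ2 in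
/-- **(F6-b), finite families, divisor level.** -/
theorem x_add_finite (X' : CoordData C')
    (hcard₁ : Fintype.card ι₁ = Fintype.card (Fin g ⊕ Fin g ⊕ Empty ⊕ ν₁) + 1)
    (H1₁ : Function.Surjective ((Chord.cond0 Y1).map (residue W)).mulVecLin)
    (f0₁ : ι₁ → W) (hf0u₁ : ∃ i, IsUnit (f0₁ i))
    (hf0₁ : ∀ c, (Chord.cond0 Y1).mulVec f0₁ c ∈ maximalIdeal W)
    (hO0₁ : ∀ o, ∑ i, f0₁ i * PowerSeries.coeff 0 (Y1.τO o i) ∈ maximalIdeal W)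
    (hO1₁ : ∀ o, IsUnit (∑ i, f0₁ i * PowerSeries.coeff 1 (Y1.τO o i)))
    (hcard₂ : Fintype.card ι₂ = Fintype.card (Empty ⊕ Empty ⊕ Fin g ⊕ ν₂) + 1)
    (H1₂ : Function.Surjective ((Chord.cond0 Y2).map (residue W)).mulVecLin)
    (f0₂ : ι₂ → W) (hf0u₂ : ∃ i, IsUnit (f0₂ i))
    (hf0₂ : ∀ c, (Chord.cond0 Y2).mulVec f0₂ c ∈ maximalIdeal W)
    (hO0₂ : ∀ o, ∑ i, f0₂ i * PowerSeries.coeff 0 (Y2.τO o i) ∈ maximalIdeal W)
    (hO1₂ : ∀ o, IsUnit (∑ i, f0₂ i * PowerSeries.coeff 1 (Y2.τO o i)))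
    (hR1 : 0 ≤ X1.R)
    (hspan1 : riemannRochSpace (Finsupp.single X1.Pinf (X1.m : ℤ)) ≤
      Submodule.span K (Set.range H1.e))
    (hind1 : LinearIndependent k fun i => S.resF (H1.e i))
    (hZinf1 : X1.Pinf ∈ Z1)
    (hν1 : ∀ m, (H1.lν m : ℤ) < X1.R (H1.Cν m).P₀)
    (hCD1 : ∀ d, S.r (H1.CD d).P₀ = C.Pb d) (hCD1t : ∀ d, (H1.CD d).t = (X.T d).t)
    (hCO1 : ∀ o, S.r (H1.CO o).P₀ = C'.Pb o) (hCO1t : ∀ o, (H1.CO o).t = (X'.T o).t)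
    (hR2 : 0 ≤ X2.R)
    (hspan2 : riemannRochSpace (Finsupp.single X2.Pinf (X2.m : ℤ)) ≤
      Submodule.span K (Set.range H2.e))
    (hind2 : LinearIndependent k fun i => S.resF (H2.e i))
    (hZinf2 : X2.Pinf ∈ Z2)
    (hν2 : ∀ m, (H2.lν m : ℤ) < X2.R (H2.Cν m).P₀)
    (hCS2 : ∀ o, S.r (H2.CS o).P₀ = C'.Pb o) (hCS2t : ∀ o, (H2.CS o).t = (X'.T o).t)
    (hCO2 : ∀ o, S.r (H2.CO o).P₀ = C.Pb o) (hCO2t : ∀ o, (H2.CO o).t = (X.T o).t)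
    (ϖ : A)
    (hIdeal : ∀ s : Finset A, (∀ a ∈ s, π a = 0) → ∃ (J : Ideal A) (e : ℕ),
      (∀ w ∈ maximalIdeal W, algebraMap W A w ∈ J) ∧ (∀ a ∈ s, a ∈ J) ∧
        ∀ N : ℕ, J ^ (e * N) ≤ Ideal.span {ϖ ^ N})
    (U : Finset (Divisor K F)) (hU : ∀ D ∈ U, D ∈ kerRed S) (n : ℕ) :
    ∃ Q : Fin g → MvPolynomial (Fin g ⊕ Fin g) W, ∀ D ∈ U, ∀ D' ∈ U, ∀ o : Fin g, ∃ b : A,
      ((X.x hF hFt hg (D + D' + twoChordConst X1 X2) o : {c : A // π c = 0}) : A) -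
        MvPolynomial.aeval (Sum.elim
          (fun d => ((X.x hF hFt hg D d : {c : A // π c = 0}) : A))
          (fun d => ((X.x hF hFt hg D' d : {c : A // π c = 0}) : A))) (Q o) = ϖ ^ n * b := by
  classical
  -- the finitely many coordinates in play
  let s1 : Finset A := U.biUnion fun D => Finset.univ.image fun d : Fin g =>
    ((X.x hF hFt hg D d : {c : A // π c = 0}) : A)
  let s2 : Finset A := (U ×ˢ U).biUnion fun p => Finset.univ.image fun o : Fin g =>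
    ((X'.x hF hFt hg (midConst C X1 - p.1 - p.2) o : {c : A // π c = 0}) : A)
  let s3 : Finset A := (U ×ˢ U).biUnion fun p => Finset.univ.image fun o : Fin g =>
    ((X.x hF hFt hg (p.1 + p.2 + twoChordConst X1 X2) o : {c : A // π c = 0}) : A)
  have hs : ∀ a ∈ s1 ∪ s2 ∪ s3, π a = 0 := by
    intro a ha
    rcases Finset.mem_union.1 ha with ha | ha
    · rcases Finset.mem_union.1 ha with ha | ha
      · obtain ⟨D, -, ha⟩ := Finset.mem_biUnion.1 ha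
        obtain ⟨d, -, rfl⟩ := Finset.mem_image.1 ha
        exact (X.x hF hFt hg D d).2
      · obtain ⟨p, -, ha⟩ := Finset.mem_biUnion.1 ha
        obtain ⟨o, -, rfl⟩ := Finset.mem_image.1 ha
        exact (X'.x hF hFt hg _ o).2
    · obtain ⟨p, -, ha⟩ := Finset.mem_biUnion.1 ha
      obtain ⟨o, -, rfl⟩ := Finset.mem_image.1 ha
      exact (X.x hF hFt hg _ o).2
  obtain ⟨J, e, hWJ, hsJ, hpow⟩ := hIdeal (s1 ∪ s2 ∪ s3) hs
  obtain ⟨Q, hQ⟩ := x_add_congruence X1 X2 X hπ hF hFt hg hQ1 hQ2 hj H1 H2 X'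
    hcard₁ H1₁ f0₁ hf0u₁ hf0₁ hO0₁ hO1₁ hcard₂ H1₂ f0₂ hf0u₂ hf0₂ hO0₂ hO1₂
    hR1 hspan1 hind1 hZinf1 hν1 hCD1 hCD1t hCO1 hCO1t
    hR2 hspan2 hind2 hZinf2 hν2 hCS2 hCS2t hCO2 hCO2t (e * n)
  refine ⟨Q, fun D hD D' hD' o => ?_⟩
  have hm1 : ∀ {E : Divisor K F}, E ∈ U → ∀ d : Fin g,
      ((X.x hF hFt hg E d : {c : A // π c = 0}) : A) ∈ J := fun {E} hE d =>
    hsJ _ (Finset.mem_union_left _ (Finset.mem_union_left _
      (Finset.mem_biUnion.2 ⟨E, hE, Finset.mem_image_of_mem _ (Finset.mem_univ d)⟩)))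
  have hp : (D, D') ∈ U ×ˢ U := Finset.mem_product.2 ⟨hD, hD'⟩
  have hm2 : ∀ o : Fin g,
      ((X'.x hF hFt hg (midConst C X1 - D - D') o : {c : A // π c = 0}) : A) ∈ J := fun o =>
    hsJ _ (Finset.mem_union_left _ (Finset.mem_union_right _
      (Finset.mem_biUnion.2 ⟨(D, D'), hp, Finset.mem_image_of_mem _ (Finset.mem_univ o)⟩)))
  have hm3 : ∀ o : Fin g,
      ((X.x hF hFt hg (D + D' + twoChordConst X1 X2) o : {c : A // π c = 0}) : A) ∈ J :=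
    fun o => hsJ _ (Finset.mem_union_right _
      (Finset.mem_biUnion.2 ⟨(D, D'), hp, Finset.mem_image_of_mem _ (Finset.mem_univ o)⟩))
  have h1 := hQ J hWJ (hU D hD) (hU D' hD') (hm1 hD) (hm1 hD') hm2 hm3 o
  have h2 : J ^ (e * n + 1) ≤ J ^ (e * n) := Ideal.pow_le_pow_right (Nat.le_succ _)
  have h3 := hpow n (h2 h1)
  rw [Ideal.mem_span_singleton] at h3
  obtain ⟨b, hb⟩ := h3
  exact ⟨b, hb⟩

/-! ### `Pic⁰` level -/

include hπ hF hFt hg hQ1 hQ2 in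
theorem twoChordConst_mem_degZero :
    twoChordConst X1 X2 ∈ Divisor.degZero (K := K) (F := F) :=
  (twoChordConst_mem_kerRed X1 X2 hπ hF hFt hg hQ1 hQ2).1

/-- The class of the two-chord constant. -/
noncomputable def twoChordClass : Pic0 K F :=
  Pic0.mk ⟨twoChordConst X1 X2, twoChordConst_mem_degZero X1 X2 hπ hF hFt hg hQ1 hQ2⟩

theorem twoChordClass_mem_kerRedPic :
    twoChordClass X1 X2 hπ hF hFt hg hQ1 hQ2 ∈ kerRedPic S :=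
  ⟨_, twoChordConst_mem_kerRed X1 X2 hπ hF hFt hg hQ1 hQ2, rfl⟩

include hj in
/-- **(F6-b), finite families, `Pic⁰` level** = the finite-family addition congruence (ADD):
for a finite set `U` of classes of the kernel of reduction and `n`, polynomials `Q o` over `W`
with `xPic (u + u' + c0) o − Q o (xPic u, xPic u') = ϖ ^ n * b`, `b ∈ A`, for all `u, u' ∈ U`. -/
theorem xPic_add_finite (X' : CoordData C')
    (hcard₁ : Fintype.card ι₁ = Fintype.card (Fin g ⊕ Fin g ⊕ Empty ⊕ ν₁) + 1)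
    (H1₁ : Function.Surjective ((Chord.cond0 Y1).map (residue W)).mulVecLin)
    (f0₁ : ι₁ → W) (hf0u₁ : ∃ i, IsUnit (f0₁ i))
    (hf0₁ : ∀ c, (Chord.cond0 Y1).mulVec f0₁ c ∈ maximalIdeal W)
    (hO0₁ : ∀ o, ∑ i, f0₁ i * PowerSeries.coeff 0 (Y1.τO o i) ∈ maximalIdeal W)
    (hO1₁ : ∀ o, IsUnit (∑ i, f0₁ i * PowerSeries.coeff 1 (Y1.τO o i)))
    (hcard₂ : Fintype.card ι₂ = Fintype.card (Empty ⊕ Empty ⊕ Fin g ⊕ ν₂) + 1)
    (H1₂ : Function.Surjective ((Chord.cond0 Y2).map (residue W)).mulVecLin)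
    (f0₂ : ι₂ → W) (hf0u₂ : ∃ i, IsUnit (f0₂ i))
    (hf0₂ : ∀ c, (Chord.cond0 Y2).mulVec f0₂ c ∈ maximalIdeal W)
    (hO0₂ : ∀ o, ∑ i, f0₂ i * PowerSeries.coeff 0 (Y2.τO o i) ∈ maximalIdeal W)
    (hO1₂ : ∀ o, IsUnit (∑ i, f0₂ i * PowerSeries.coeff 1 (Y2.τO o i)))
    (hR1 : 0 ≤ X1.R)
    (hspan1 : riemannRochSpace (Finsupp.single X1.Pinf (X1.m : ℤ)) ≤
      Submodule.span K (Set.range H1.e))
    (hind1 : LinearIndependent k fun i => S.resF (H1.e i))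
    (hZinf1 : X1.Pinf ∈ Z1)
    (hν1 : ∀ m, (H1.lν m : ℤ) < X1.R (H1.Cν m).P₀)
    (hCD1 : ∀ d, S.r (H1.CD d).P₀ = C.Pb d) (hCD1t : ∀ d, (H1.CD d).t = (X.T d).t)
    (hCO1 : ∀ o, S.r (H1.CO o).P₀ = C'.Pb o) (hCO1t : ∀ o, (H1.CO o).t = (X'.T o).t)
    (hR2 : 0 ≤ X2.R)
    (hspan2 : riemannRochSpace (Finsupp.single X2.Pinf (X2.m : ℤ)) ≤
      Submodule.span K (Set.range H2.e))
    (hind2 : LinearIndependent k fun i => S.resF (H2.e i))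
    (hZinf2 : X2.Pinf ∈ Z2)
    (hν2 : ∀ m, (H2.lν m : ℤ) < X2.R (H2.Cν m).P₀)
    (hCS2 : ∀ o, S.r (H2.CS o).P₀ = C'.Pb o) (hCS2t : ∀ o, (H2.CS o).t = (X'.T o).t)
    (hCO2 : ∀ o, S.r (H2.CO o).P₀ = C.Pb o) (hCO2t : ∀ o, (H2.CO o).t = (X.T o).t)
    (ϖ : A)
    (hIdeal : ∀ s : Finset A, (∀ a ∈ s, π a = 0) → ∃ (J : Ideal A) (e : ℕ),
      (∀ w ∈ maximalIdeal W, algebraMap W A w ∈ J) ∧ (∀ a ∈ s, a ∈ J) ∧
        ∀ N : ℕ, J ^ (e * N) ≤ Ideal.span {ϖ ^ N})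
    (U : Finset (Pic0 K F)) (hU : ∀ u ∈ U, u ∈ kerRedPic S) (n : ℕ) :
    ∃ Q : Fin g → MvPolynomial (Fin g ⊕ Fin g) W, ∀ u ∈ U, ∀ u' ∈ U, ∀ o : Fin g, ∃ b : A,
      ((X.xPic hF hFt hg (u + u' + twoChordClass X1 X2 hπ hF hFt hg hQ1 hQ2) o :
          {c : A // π c = 0}) : A) -
        MvPolynomial.aeval (Sum.elim
          (fun d => ((X.xPic hF hFt hg u d : {c : A // π c = 0}) : A))
          (fun d => ((X.xPic hF hFt hg u' d : {c : A // π c = 0}) : A))) (Q o) = ϖ ^ n * b := by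
  classical
  -- representatives
  have hrep : ∀ u : Pic0 K F, ∃ D : Divisor.degZero (K := K) (F := F),
      u ∈ kerRedPic S → (D : Divisor K F) ∈ kerRed S ∧ Pic0.mk D = u := by
    intro u
    by_cases hu : u ∈ kerRedPic S
    · obtain ⟨D, hD, hDu⟩ := hu
      exact ⟨D, fun _ => ⟨hD, hDu⟩⟩
    · exact ⟨0, fun h => absurd h hu⟩
  choose rep hrep using hrep
  obtain ⟨Q, hQ⟩ := x_add_finite X1 X2 X hπ hF hFt hg hQ1 hQ2 hj H1 H2 X'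
    hcard₁ H1₁ f0₁ hf0u₁ hf0₁ hO0₁ hO1₁ hcard₂ H1₂ f0₂ hf0u₂ hf0₂ hO0₂ hO1₂
    hR1 hspan1 hind1 hZinf1 hν1 hCD1 hCD1t hCO1 hCO1t
    hR2 hspan2 hind2 hZinf2 hν2 hCS2 hCS2t hCO2 hCO2t ϖ hIdeal
    (U.image fun u => (rep u : Divisor K F))
    (fun D hD => by
      obtain ⟨u, hu, rfl⟩ := Finset.mem_image.1 hD
      exact (hrep u (hU u hu)).1) n
  refine ⟨Q, fun u hu u' hu' o => ?_⟩
  obtain ⟨hD, hDu⟩ := hrep u (hU u hu)
  obtain ⟨hD', hDu'⟩ := hrep u' (hU u' hu')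
  have hc := twoChordConst_mem_kerRed X1 X2 hπ hF hFt hg hQ1 hQ2
  have e1 : X.xPic hF hFt hg u = X.x hF hFt hg (rep u : Divisor K F) := by
    conv_lhs => rw [← hDu]
    exact X.xPic_mk hπ hF hFt hg hD
  have e2 : X.xPic hF hFt hg u' = X.x hF hFt hg (rep u' : Divisor K F) := by
    conv_lhs => rw [← hDu']
    exact X.xPic_mk hπ hF hFt hg hD'
  set c0D : Divisor.degZero (K := K) (F := F) :=
    ⟨twoChordConst X1 X2, twoChordConst_mem_degZero X1 X2 hπ hF hFt hg hQ1 hQ2⟩ with hc0D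
  have h4 : u + u' + twoChordClass X1 X2 hπ hF hFt hg hQ1 hQ2 =
      Pic0.mk (rep u + rep u' + c0D) := by
    rw [Pic0.mk_add, Pic0.mk_add, hDu, hDu']
    rfl
  have h5 : ((rep u + rep u' + c0D : Divisor.degZero (K := K) (F := F)) : Divisor K F) =
      (rep u : Divisor K F) + (rep u' : Divisor K F) + twoChordConst X1 X2 := by
    rw [AddSubgroup.coe_add, AddSubgroup.coe_add]
  have h6 : ((rep u + rep u' + c0D : Divisor.degZero (K := K) (F := F)) : Divisor K F) ∈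
      kerRed S := by
    rw [h5]
    exact add_mem (add_mem hD hD') hc
  have e3 : X.xPic hF hFt hg (u + u' + twoChordClass X1 X2 hπ hF hFt hg hQ1 hQ2) =
      X.x hF hFt hg ((rep u : Divisor K F) + (rep u' : Divisor K F) + twoChordConst X1 X2) := by
    rw [h4, X.xPic_mk hπ hF hFt hg h6, h5]
  rw [e1, e2, e3]
  exact hQ _ (Finset.mem_image_of_mem _ hu) _ (Finset.mem_image_of_mem _ hu') o

end Fermat.Agent.FF2.G4
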