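import Mathlib
import Fermat.Agent.FF2.G4.AddFinite

/-!
# MOONSHOT S19, block (F6-b), part 5: finite families from the BARE conclusion of the congruence

`AddCongrConcl X1 X2 X X' hF hFt hg W` : the conclusion of `G4.x_add_congruence` (for all `N`), as
a `Prop`, so that it can be produced by any engine (`G4.x_add_congruence`, helper2's
`SFfin.x_add_congruence_one`, …).

* `addCongrConcl_of_hyps` : `G4.x_add_congruence` proves it;
* `x_add_finite_of`, `xPic_add_finite_of` : the finite-family `∃ b` forms from `AddCongrConcl` and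
  the ideal input `hIdeal`.
-/

set_option autoImplicit false

namespace Fermat.Agent.FF2.G4

open AlgebraicCurve Module Fermat.Agent.Red Fermat.Agent.FF2.G2 Fermat.Agent.FF2.Disc
  IsLocalRing

variable {K F k Ft : Type*} [Field K] [Field F] [Algebra K F] [Field k] [Field Ft]
  [Algebra k Ft] {A : ValuationSubring K} {π : A →+* k}
  {S : RedSetup (F := F) (Ft := Ft) A π}
  {g : ℕ} {C C' : ChartData S g} (X1 : GC.ChordData C' (g + g)) (X2 : GC.ChordData C g)
  (X : CoordData C) (X' : CoordData C')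
  (hπ : Function.Surjective π) (hF : RiemannPkg K F) (hFt : RiemannPkg k Ft)
  (hg : genusFF K F ≤ g)
  (hQ1 : ∀ i, X1.Qb i = Fin.append C.Pb C.Pb i) (hQ2 : ∀ j, X2.Qb j = C'.Pb j)
  (W : Type*) [CommRing W] [IsLocalRing W] [Algebra W A]

/-- The bare conclusion of the addition congruence `x_add_congruence`, for all `N`. -/
def AddCongrConcl : Prop :=
  ∀ N : ℕ, ∃ Q : Fin g → MvPolynomial (Fin g ⊕ Fin g) W,
    ∀ (J : Ideal A) (_hWJ : ∀ w ∈ maximalIdeal W, algebraMap W A w ∈ J)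
      {D D' : Divisor K F} (_hD : D ∈ kerRed S) (_hD' : D' ∈ kerRed S)
      (_hxD : ∀ d, ((X.x hF hFt hg D d : {c : A // π c = 0}) : A) ∈ J)
      (_hxD' : ∀ d, ((X.x hF hFt hg D' d : {c : A // π c = 0}) : A) ∈ J)
      (_hmid : ∀ o, ((X'.x hF hFt hg (midConst C X1 - D - D') o : {c : A // π c = 0}) : A) ∈ J)
      (_hout : ∀ o,
        ((X.x hF hFt hg (D + D' + twoChordConst X1 X2) o : {c : A // π c = 0}) : A) ∈ J)
      (o : Fin g),
      ((X.x hF hFt hg (D + D' + twoChordConst X1 X2) o : {c : A // π c = 0}) : A) -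
        MvPolynomial.aeval (Sum.elim
          (fun d => ((X.x hF hFt hg D d : {c : A // π c = 0}) : A))
          (fun d => ((X.x hF hFt hg D' d : {c : A // π c = 0}) : A))) (Q o) ∈ J ^ (N + 1)

variable {W}

/-- **Finite families, divisor level, from the bare congruence.** -/
theorem x_add_finite_of (hX : AddCongrConcl X1 X2 X X' hF hFt hg W) (ϖ : A)
    (hIdeal : ∀ s : Finset A, (∀ a ∈ s, π a = 0) → ∃ (J : Ideal A) (e : ℕ),
      (∀ w ∈ maximalIdeal W, algebraMap W A w ∈ J) ∧ (∀ a ∈ s, a ∈ J) ∧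
        ∀ N : ℕ, J ^ (e * N) ≤ Ideal.span {ϖ ^ N})
    (U : Finset (Divisor K F)) (hU : ∀ D ∈ U, D ∈ kerRed S) (n : ℕ) :
    ∃ Q : Fin g → MvPolynomial (Fin g ⊕ Fin g) W, ∀ D ∈ U, ∀ D' ∈ U, ∀ o : Fin g, ∃ b : A,
      ((X.x hF hFt hg (D + D' + twoChordConst X1 X2) o : {c : A // π c = 0}) : A) -
        MvPolynomial.aeval (Sum.elim
          (fun d => ((X.x hF hFt hg D d : {c : A // π c = 0}) : A))
          (fun d => ((X.x hF hFt hg D' d : {c : A // π c = 0}) : A))) (Q o) = ϖ ^ n * b := by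
  classical
  let s1 : Finset A := U.biUnion fun D => Finset.univ.image fun d : Fin g =>
    ((X.x hF hFt hg D d : {c : A // π c = 0}) : A)
  let s2 : Finset A := (U ×ˢ U).biUnion fun p => Finset.univ.image fun o : Fin g =>
    ((X'.x hF hFt hg (midConst C X1 - p.1 - p.2) o : {c : A // π c = 0}) : A)
  let s3 : Finset A := (U ×ˢ U).biUnion fun p => Finset.univ.image fun o : Fin g =>
    ((X.x hF hFt hg (p.1 + p.2 + twoChordConst X1 X2) o : {c : A // π c = 0}) : A)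
  have hs : ∀ a ∈ s1 ∪ s2 ∪ s3, π a = 0 := by
    intro a ha
    rcases Finset.mem_union.1 ha with ha | ha
    · rcases Finset.mem_union.1 ha with ha | ha
      · obtain ⟨D, -, ha⟩ := Finset.mem_biUnion.1 ha
        obtain ⟨d, -, rfl⟩ := Finset.mem_image.1 ha
        exact (X.x hF hFt hg D d).2
      · obtain ⟨p, -, ha⟩ := Finset.mem_biUnion.1 ha
        obtain ⟨o, -, rfl⟩ := Finset.mem_image.1 ha
        exact (X'.x hF hFt hg _ o).2
    · obtain ⟨p, -, ha⟩ := Finset.mem_biUnion.1 ha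
      obtain ⟨o, -, rfl⟩ := Finset.mem_image.1 ha
      exact (X.x hF hFt hg _ o).2
  obtain ⟨J, e, hWJ, hsJ, hpow⟩ := hIdeal (s1 ∪ s2 ∪ s3) hs
  obtain ⟨Q, hQ⟩ := hX (e * n)
  refine ⟨Q, fun D hD D' hD' o => ?_⟩
  have hm1 : ∀ {E : Divisor K F}, E ∈ U → ∀ d : Fin g,
      ((X.x hF hFt hg E d : {c : A // π c = 0}) : A) ∈ J := fun {E} hE d =>
    hsJ _ (Finset.mem_union_left _ (Finset.mem_union_left _
      (Finset.mem_biUnion.2 ⟨E, hE, Finset.mem_image_of_mem _ (Finset.mem_univ d)⟩)))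
  have hp : (D, D') ∈ U ×ˢ U := Finset.mem_product.2 ⟨hD, hD'⟩
  have hm2 : ∀ o : Fin g,
      ((X'.x hF hFt hg (midConst C X1 - D - D') o : {c : A // π c = 0}) : A) ∈ J := fun o =>
    hsJ _ (Finset.mem_union_left _ (Finset.mem_union_right _
      (Finset.mem_biUnion.2 ⟨(D, D'), hp, Finset.mem_image_of_mem _ (Finset.mem_univ o)⟩)))
  have hm3 : ∀ o : Fin g,
      ((X.x hF hFt hg (D + D' + twoChordConst X1 X2) o : {c : A // π c = 0}) : A) ∈ J :=
    fun o => hsJ _ (Finset.mem_union_right _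
      (Finset.mem_biUnion.2 ⟨(D, D'), hp, Finset.mem_image_of_mem _ (Finset.mem_univ o)⟩))
  have h1 := hQ J hWJ (hU D hD) (hU D' hD') (hm1 hD) (hm1 hD') hm2 hm3 o
  have h2 : J ^ (e * n + 1) ≤ J ^ (e * n) := Ideal.pow_le_pow_right (Nat.le_succ _)
  have h3 := hpow n (h2 h1)
  rw [Ideal.mem_span_singleton] at h3
  obtain ⟨b, hb⟩ := h3
  exact ⟨b, hb⟩

include hπ in
/-- **Finite families, `Pic⁰` level, from the bare congruence** (= (ADD), abstract). -/
theorem xPic_add_finite_of (hX : AddCongrConcl X1 X2 X X' hF hFt hg W) (ϖ : A)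
    (hIdeal : ∀ s : Finset A, (∀ a ∈ s, π a = 0) → ∃ (J : Ideal A) (e : ℕ),
      (∀ w ∈ maximalIdeal W, algebraMap W A w ∈ J) ∧ (∀ a ∈ s, a ∈ J) ∧
        ∀ N : ℕ, J ^ (e * N) ≤ Ideal.span {ϖ ^ N})
    (U : Finset (Pic0 K F)) (hU : ∀ u ∈ U, u ∈ kerRedPic S) (n : ℕ) :
    ∃ Q : Fin g → MvPolynomial (Fin g ⊕ Fin g) W, ∀ u ∈ U, ∀ u' ∈ U, ∀ o : Fin g, ∃ b : A,
      ((X.xPic hF hFt hg (u + u' + twoChordClass X1 X2 hπ hF hFt hg hQ1 hQ2) o :
          {c : A // π c = 0}) : A) -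
        MvPolynomial.aeval (Sum.elim
          (fun d => ((X.xPic hF hFt hg u d : {c : A // π c = 0}) : A))
          (fun d => ((X.xPic hF hFt hg u' d : {c : A // π c = 0}) : A))) (Q o) = ϖ ^ n * b := by
  classical
  have hrep : ∀ u : Pic0 K F, ∃ D : Divisor.degZero (K := K) (F := F),
      u ∈ kerRedPic S → (D : Divisor K F) ∈ kerRed S ∧ Pic0.mk D = u := by
    intro u
    by_cases hu : u ∈ kerRedPic S
    · obtain ⟨D, hD, hDu⟩ := hu
      exact ⟨D, fun _ => ⟨hD, hDu⟩⟩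
    · exact ⟨0, fun h => absurd h hu⟩
  choose rep hrep using hrep
  obtain ⟨Q, hQ⟩ := x_add_finite_of X1 X2 X X' hF hFt hg hX ϖ hIdeal
    (U.image fun u => (rep u : Divisor K F))
    (fun D hD => by
      obtain ⟨u, hu, rfl⟩ := Finset.mem_image.1 hD
      exact (hrep u (hU u hu)).1) n
  refine ⟨Q, fun u hu u' hu' o => ?_⟩
  obtain ⟨hD, hDu⟩ := hrep u (hU u hu)
  obtain ⟨hD', hDu'⟩ := hrep u' (hU u' hu')
  have hc := twoChordConst_mem_kerRed X1 X2 hπ hF hFt hg hQ1 hQ2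
  have e1 : X.xPic hF hFt hg u = X.x hF hFt hg (rep u : Divisor K F) := by
    conv_lhs => rw [← hDu]
    exact X.xPic_mk hπ hF hFt hg hD
  have e2 : X.xPic hF hFt hg u' = X.x hF hFt hg (rep u' : Divisor K F) := by
    conv_lhs => rw [← hDu']
    exact X.xPic_mk hπ hF hFt hg hD'
  set c0D : Divisor.degZero (K := K) (F := F) :=
    ⟨twoChordConst X1 X2, twoChordConst_mem_degZero X1 X2 hπ hF hFt hg hQ1 hQ2⟩ with hc0D
  have h4 : u + u' + twoChordClass X1 X2 hπ hF hFt hg hQ1 hQ2 =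
      Pic0.mk (rep u + rep u' + c0D) := by
    rw [Pic0.mk_add, Pic0.mk_add, hDu, hDu']
    rfl
  have h5 : ((rep u + rep u' + c0D : Divisor.degZero (K := K) (F := F)) : Divisor K F) =
      (rep u : Divisor K F) + (rep u' : Divisor K F) + twoChordConst X1 X2 := by
    rw [AddSubgroup.coe_add, AddSubgroup.coe_add]
  have h6 : ((rep u + rep u' + c0D : Divisor.degZero (K := K) (F := F)) : Divisor K F) ∈
      kerRed S := by
    rw [h5]
    exact add_mem (add_mem hD hD') hc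
  have e3 : X.xPic hF hFt hg (u + u' + twoChordClass X1 X2 hπ hF hFt hg hQ1 hQ2) =
      X.x hF hFt hg ((rep u : Divisor K F) + (rep u' : Divisor K F) + twoChordConst X1 X2) := by
    rw [h4, X.xPic_mk hπ hF hFt hg h6, h5]
  rw [e1, e2, e3]
  exact hQ _ (Finset.mem_image_of_mem _ hu) _ (Finset.mem_image_of_mem _ hu') o

end Fermat.Agent.FF2.G4
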